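/-
S41 / PD block, PD4c part 1 (helper8): parabolic elements of `SL(2,ℤ)`.

* `Par.mk2`, entry lemmas, `Par.ext2`;
* `Par.exists_conj_T_zpow` : trace `2` ⇒ `g = h⁻¹ T^n h`;
* `Par.eq_T_zpow_of_comm` : `u T^w = T^w' u`, `w ≠ 0` ⇒ `w = w'` and `u = ± T^j`;
* the quadratic form `Par.qf g x y = det (v, g v)`, `v = (x, y)`, its behaviour under conjugation
  and under an intertwining integral matrix of positive determinant.
-/
import Mathlib

set_option autoImplicit false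

namespace Fermat.Agent.S41lib.PD.Par

open Matrix ModularGroup
open scoped MatrixGroups

/-- an element of `SL(2,ℤ)` from its entries -/
def mk2 (a b c d : ℤ) (h : a * d - b * c = 1) : SL(2, ℤ) :=
  ⟨!![a, b; c, d], by rw [Matrix.det_fin_two_of]; exact h⟩

@[simp] lemma mk2_00 (a b c d : ℤ) (h : a * d - b * c = 1) : (mk2 a b c d h) 0 0 = a := rfl
@[simp] lemma mk2_01 (a b c d : ℤ) (h : a * d - b * c = 1) : (mk2 a b c d h) 0 1 = b := rfl
@[simp] lemma mk2_10 (a b c d : ℤ) (h : a * d - b * c = 1) : (mk2 a b c d h) 1 0 = c := rfl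
@[simp] lemma mk2_11 (a b c d : ℤ) (h : a * d - b * c = 1) : (mk2 a b c d h) 1 1 = d := rfl

lemma det2 (g : SL(2, ℤ)) : g 0 0 * g 1 1 - g 0 1 * g 1 0 = 1 := by
  have := g.det_coe
  rwa [Matrix.det_fin_two] at this

lemma ext2 {g h : SL(2, ℤ)} (h00 : g 0 0 = h 0 0) (h01 : g 0 1 = h 0 1)
    (h10 : g 1 0 = h 1 0) (h11 : g 1 1 = h 1 1) : g = h := by
  ext i j
  fin_cases i <;> fin_cases j <;> assumption

lemma mul_00 (g h : SL(2, ℤ)) : (g * h) 0 0 = g 0 0 * h 0 0 + g 0 1 * h 1 0 := by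
  simp [Matrix.mul_apply, Fin.sum_univ_two]
lemma mul_01 (g h : SL(2, ℤ)) : (g * h) 0 1 = g 0 0 * h 0 1 + g 0 1 * h 1 1 := by
  simp [Matrix.mul_apply, Fin.sum_univ_two]
lemma mul_10 (g h : SL(2, ℤ)) : (g * h) 1 0 = g 1 0 * h 0 0 + g 1 1 * h 1 0 := by
  simp [Matrix.mul_apply, Fin.sum_univ_two]
lemma mul_11 (g h : SL(2, ℤ)) : (g * h) 1 1 = g 1 0 * h 0 1 + g 1 1 * h 1 1 := by
  simp [Matrix.mul_apply, Fin.sum_univ_two]

lemma inv_00 (g : SL(2, ℤ)) : (g⁻¹) 0 0 = g 1 1 := by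
  simp [Matrix.SpecialLinearGroup.coe_inv, Matrix.adjugate_fin_two]
lemma inv_01 (g : SL(2, ℤ)) : (g⁻¹) 0 1 = - g 0 1 := by
  simp [Matrix.SpecialLinearGroup.coe_inv, Matrix.adjugate_fin_two]
lemma inv_10 (g : SL(2, ℤ)) : (g⁻¹) 1 0 = - g 1 0 := by
  simp [Matrix.SpecialLinearGroup.coe_inv, Matrix.adjugate_fin_two]
lemma inv_11 (g : SL(2, ℤ)) : (g⁻¹) 1 1 = g 0 0 := by
  simp [Matrix.SpecialLinearGroup.coe_inv, Matrix.adjugate_fin_two]

lemma T_zpow_00 (n : ℤ) : (T ^ n) 0 0 = 1 := by rw [coe_T_zpow]; rfl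
lemma T_zpow_01 (n : ℤ) : (T ^ n) 0 1 = n := by rw [coe_T_zpow]; rfl
lemma T_zpow_10 (n : ℤ) : (T ^ n) 1 0 = 0 := by rw [coe_T_zpow]; rfl
lemma T_zpow_11 (n : ℤ) : (T ^ n) 1 1 = 1 := by rw [coe_T_zpow]; rfl

lemma neg_00 (g : SL(2, ℤ)) : (-g) 0 0 = - g 0 0 := by simp
lemma neg_01 (g : SL(2, ℤ)) : (-g) 0 1 = - g 0 1 := by simp
lemma neg_10 (g : SL(2, ℤ)) : (-g) 1 0 = - g 1 0 := by simp
lemma neg_11 (g : SL(2, ℤ)) : (-g) 1 1 = - g 1 1 := by simp

/-- the trace -/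
def tr (g : SL(2, ℤ)) : ℤ := g 0 0 + g 1 1

lemma tr_conj (g h : SL(2, ℤ)) : tr (h⁻¹ * g * h) = tr g := by
  unfold tr
  rw [mul_00, mul_11, mul_00, mul_01, mul_10, mul_11, inv_00, inv_01, inv_10, inv_11]
  have := det2 h
  linear_combination (g 0 0 + g 1 1) * this

lemma tr_T_zpow (n : ℤ) : tr (T ^ n) = 2 := by
  unfold tr
  rw [T_zpow_00, T_zpow_11]
  rfl

/-- a primitive vector fixed by a trace-2 element -/
lemma exists_fixed_vector (g : SL(2, ℤ)) (h : tr g = 2) :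
    ∃ x y : ℤ, IsCoprime x y ∧ (g 0 0 - 1) * x + g 0 1 * y = 0 ∧
      g 1 0 * x - (g 0 0 - 1) * y = 0 := by
  have hdet := det2 g
  unfold tr at h
  set α := g 0 0 - 1 with hα
  have hd : g 1 1 = 1 - α := by rw [hα]; linarith
  have hrel : α * α + g 0 1 * g 1 0 = 0 := by
    rw [hd] at hdet
    have : g 0 0 = 1 + α := by rw [hα]; ring
    rw [this] at hdet
    linear_combination (-1 : ℤ) * hdet
  by_cases h0 : α = 0 ∧ g 0 1 = 0
  · refine ⟨0, 1, isCoprime_zero_left.mpr isUnit_one, ?_, ?_⟩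
    · rw [h0.2]; ring
    · rw [h0.1]; ring
  · -- gcd
    have hg : Int.gcd α (g 0 1) ≠ 0 := by
      intro hg
      rw [Int.gcd_eq_zero_iff] at hg
      exact h0 hg
    obtain ⟨y', hy'⟩ : ((Int.gcd α (g 0 1) : ℤ)) ∣ α := Int.gcd_dvd_left _ _
    obtain ⟨x', hx'⟩ : ((Int.gcd α (g 0 1) : ℤ)) ∣ g 0 1 := Int.gcd_dvd_right _ _
    set e : ℤ := (Int.gcd α (g 0 1) : ℤ) with he
    have he0 : e ≠ 0 := by
      rw [he]
      exact_mod_cast hg
    have hcop : IsCoprime x' y' := by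
      -- gcd (e y') (e x') = e ⇒ gcd y' x' = 1
      have h1 : Int.gcd α (g 0 1) = Int.gcd (e * y') (e * x') := by rw [← hy', ← hx']
      rw [Int.gcd_mul_left] at h1
      have h2 : (e.natAbs : ℤ) = e := by
        rw [he]
        simp
      have h3 : e.natAbs ≠ 0 := by
        intro h
        apply he0
        exact Int.natAbs_eq_zero.mp h
      have h4 : Int.gcd y' x' = 1 := by
        have h5 : e.natAbs = Int.gcd α (g 0 1) := by
          rw [he]
          simp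
        rw [← h5] at h1
        have : e.natAbs * 1 = e.natAbs * Int.gcd y' x' := by rw [mul_one]; exact h1
        exact (Nat.eq_of_mul_eq_mul_left (Nat.pos_of_ne_zero h3) this).symm
      exact (Int.isCoprime_iff_gcd_eq_one.mpr h4).symm
    refine ⟨x', -y', hcop.neg_right, ?_, ?_⟩
    · rw [hy', hx']; ring
    · -- c x' + α y' = 0 from α² + b c = 0
      have h1 : e * (g 1 0 * x' + e * y' * y') = 0 := by
        have := hrel
        rw [hy', hx'] at this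
        linear_combination this
      have h2 := (mul_eq_zero.mp h1).resolve_left he0
      rw [hy']
      linear_combination h2

/-- **Classification**: a trace-2 element of `SL(2,ℤ)` is conjugate to a power of `T`. -/
theorem exists_conj_T_zpow (g : SL(2, ℤ)) (h : tr g = 2) :
    ∃ (u : SL(2, ℤ)) (n : ℤ), g = u⁻¹ * T ^ n * u := by
  obtain ⟨x, y, hcop, h1, h2⟩ := exists_fixed_vector g h
  obtain ⟨t, s', hts⟩ := hcop
  -- x t - y s = 1 with s = - s'
  set s := -s' with hs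
  have hdet : x * t - s * y = 1 := by rw [hs]; linarith
  set P := mk2 x s y t hdet with hP
  set α := g 0 0 - 1 with hα
  have hd : g 1 1 = 1 - α := by unfold tr at h; rw [hα]; linarith
  set n : ℤ := t * (α * s + g 0 1 * t) - s * (g 1 0 * s - α * t) with hn
  refine ⟨P⁻¹, n, ?_⟩
  rw [inv_inv]
  -- g * P = P * T^n
  have key : g * P = P * T ^ n := by
    apply ext2
    · rw [mul_00, mul_00, T_zpow_00, T_zpow_10, hP]
      simp only [mk2_00, mk2_10]
      have : g 0 0 = 1 + α := by rw [hα]; ring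
      rw [this]
      linear_combination h1
    · rw [mul_01, mul_01, T_zpow_01, T_zpow_11, hP]
      simp only [mk2_00, mk2_01, mk2_11]
      have : g 0 0 = 1 + α := by rw [hα]; ring
      rw [this, hn]
      linear_combination (-(α * s + g 0 1 * t)) * hdet + s * s * h2 - s * t * h1
    · rw [mul_10, mul_10, T_zpow_00, T_zpow_10, hP]
      simp only [mk2_00, mk2_10]
      rw [hd]
      linear_combination h2
    · rw [mul_11, mul_11, T_zpow_01, T_zpow_11, hP]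
      simp only [mk2_01, mk2_10, mk2_11]
      rw [hd, hn]
      linear_combination (-(g 1 0 * s - α * t)) * hdet + t * s * h2 - t * t * h1
  calc g = g * P * P⁻¹ := by group
    _ = P * T ^ n * P⁻¹ := by rw [key]

/-- `u T^w = T^w' u`, `w ≠ 0` ⇒ `u` is upper triangular with diagonal `±1` and `w = w'`. -/
theorem eq_of_comm_T {u : SL(2, ℤ)} {w w' : ℤ} (hw : w ≠ 0) (h : u * T ^ w = T ^ w' * u) :
    u 1 0 = 0 ∧ w = w' ∧ ((u 0 0 = 1 ∧ u 1 1 = 1) ∨ (u 0 0 = -1 ∧ u 1 1 = -1)) := by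
  have h11 := congrArg (fun m : SL(2, ℤ) => m 1 1) h
  have h01 := congrArg (fun m : SL(2, ℤ) => m 0 1) h
  simp only [mul_11, mul_01, T_zpow_00, T_zpow_01, T_zpow_10, T_zpow_11] at h11 h01
  have hc : u 1 0 = 0 := by
    have : u 1 0 * w = 0 := by linarith
    exact (mul_eq_zero.mp this).resolve_right hw
  have hdet := det2 u
  rw [hc, mul_zero, sub_zero] at hdet
  have hcases : (u 0 0 = 1 ∧ u 1 1 = 1) ∨ (u 0 0 = -1 ∧ u 1 1 = -1) :=
    Int.eq_one_or_neg_one_of_mul_eq_one' hdet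
  refine ⟨hc, ?_, hcases⟩
  rcases hcases with ⟨ha, hd⟩ | ⟨ha, hd⟩
  · rw [ha, hd] at h01; linarith
  · rw [ha, hd] at h01; linarith

/-- `u T^w = T^w' u`, `w ≠ 0` ⇒ `u = ± T^j`. -/
theorem eq_T_zpow_of_comm {u : SL(2, ℤ)} {w w' : ℤ} (hw : w ≠ 0) (h : u * T ^ w = T ^ w' * u) :
    w = w' ∧ ∃ j : ℤ, u = T ^ j ∨ u = - T ^ j := by
  obtain ⟨hc, hww, hcases⟩ := eq_of_comm_T hw h
  refine ⟨hww, ?_⟩
  rcases hcases with ⟨ha, hd⟩ | ⟨ha, hd⟩
  · refine ⟨u 0 1, Or.inl ?_⟩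
    apply ext2
    · rw [T_zpow_00, ha]
    · rw [T_zpow_01]
    · rw [T_zpow_10, hc]
    · rw [T_zpow_11, hd]
  · refine ⟨- u 0 1, Or.inr ?_⟩
    apply ext2
    · rw [neg_00, T_zpow_00, ha]
    · rw [neg_01, T_zpow_01]; ring
    · rw [neg_10, T_zpow_10, hc]; ring
    · rw [neg_11, T_zpow_11, hd]

/-! ### The quadratic form `det (v, g v)` -/

/-- `det (v, g v)` for `v = (x, y)`. -/
def qf (g : SL(2, ℤ)) (x y : ℤ) : ℤ := g 1 0 * x ^ 2 + (g 1 1 - g 0 0) * x * y - g 0 1 * y ^ 2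

/-- the form is non-positive -/
def NonPos (g : SL(2, ℤ)) : Prop := ∀ x y : ℤ, qf g x y ≤ 0

lemma qf_conj (g u : SL(2, ℤ)) (x y : ℤ) :
    qf (u⁻¹ * g * u) x y = qf g (u 0 0 * x + u 0 1 * y) (u 1 0 * x + u 1 1 * y) := by
  unfold qf
  simp only [mul_00, mul_01, mul_10, mul_11, inv_00, inv_01, inv_10, inv_11]
  ring

lemma qf_T_zpow (n x y : ℤ) : qf (T ^ n) x y = - n * y ^ 2 := by
  unfold qf
  rw [T_zpow_00, T_zpow_01, T_zpow_10, T_zpow_11]
  ring

lemma nonPos_conj_T_zpow (u : SL(2, ℤ)) (n : ℤ) : NonPos (u⁻¹ * T ^ n * u) ↔ 0 ≤ n := by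
  constructor
  · intro h
    have h1 := h (- u 0 1) (u 0 0)
    rw [qf_conj, qf_T_zpow] at h1
    have hdet := det2 u
    have : u 1 0 * -u 0 1 + u 1 1 * u 0 0 = 1 := by linarith
    rw [this] at h1
    linarith
  · intro hn x y
    rw [qf_conj, qf_T_zpow]
    have := sq_nonneg (u 1 0 * x + u 1 1 * y)
    nlinarith

/-- If `W g = g' W` for an integral `W` of positive determinant then non-positivity of the form of
`g'` implies that of `g`. -/
lemma nonPos_of_intertwine {g g' : SL(2, ℤ)} (W : Matrix (Fin 2) (Fin 2) ℤ) (hW : 0 < W.det)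
    (h : W * (g : Matrix (Fin 2) (Fin 2) ℤ) = (g' : Matrix (Fin 2) (Fin 2) ℤ) * W)
    (hg' : NonPos g') : NonPos g := by
  intro x y
  rw [Matrix.det_fin_two] at hW
  have h00 := congrFun (congrFun h 0) 0
  have h01 := congrFun (congrFun h 0) 1
  have h10 := congrFun (congrFun h 1) 0
  have h11 := congrFun (congrFun h 1) 1
  simp only [Matrix.mul_apply, Fin.sum_univ_two] at h00 h01 h10 h11
  have key : qf g' (W 0 0 * x + W 0 1 * y) (W 1 0 * x + W 1 1 * y) =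
      (W 0 0 * W 1 1 - W 0 1 * W 1 0) * qf g x y := by
    unfold qf
    linear_combination ((W 1 0 * x + W 1 1 * y) * x) * h00 + ((W 1 0 * x + W 1 1 * y) * y) * h01
      - ((W 0 0 * x + W 0 1 * y) * x) * h10 - ((W 0 0 * x + W 0 1 * y) * y) * h11
  have h1 := hg' (W 0 0 * x + W 0 1 * y) (W 1 0 * x + W 1 1 * y)
  rw [key] at h1
  by_contra hcon
  rw [not_le] at hcon
  have := mul_pos hW hcon
  linarith

end Fermat.Agent.S41lib.PD.Par
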