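/-
S41 / PD block, PD4c part 2 (helper8): `T`-orbits of `X = SL(2,ℤ) ⧸ Γ` versus `Γ`-classes of
positive primitive parabolic elements.

* `Par.orbT Γ`         : the set of `T`-orbits of `X`;
* `Par.IsCuspElt Γ x γ`: `γ = g⁻¹ T^w g` with `g Γ = x`, `w` the period of `x` under `T`;
* `Par.IsPPP Γ γ`      : `γ` has trace `2`, is `≠ 1`, its form `det (v, γ v)` is `≤ 0`, and it is not a
  proper power of a trace-2 element of `Γ`;
* `IsCuspElt.isPPP`, `IsPPP.exists_isCuspElt`, `IsCuspElt.conj_iff`.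
-/
import Mathlib
import Fermat.Agent.ProgramR.ES.Cocycle
import Fermat.Agent.S41lib.PD.Par.Classify

set_option autoImplicit false

namespace Fermat.Agent.S41lib.PD.Par

open ModularGroup MulAction
open Fermat.Agent.ProgramR.ES
open scoped MatrixGroups

variable (Γ : Subgroup SL(2, ℤ))

/-- The set of `T`-orbits of `X = SL(2,ℤ) ⧸ Γ`. -/
abbrev orbT : Type := MulAction.orbitRel.Quotient (Subgroup.zpowers T) (SL(2, ℤ) ⧸ Γ)

variable {Γ}

lemma smul_mk' (g h : SL(2, ℤ)) :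
    g • (QuotientGroup.mk h : SL(2, ℤ) ⧸ Γ) = QuotientGroup.mk (g * h) := rfl

/-- the period of every point under `T` is positive -/
lemma period_pos [Finite (SL(2, ℤ) ⧸ Γ)] (x : SL(2, ℤ) ⧸ Γ) : 0 < period T x := by
  have hfin : IsOfFinOrder (MulAction.toPermHom SL(2, ℤ) (SL(2, ℤ) ⧸ Γ) T) :=
    isOfFinOrder_of_finite _
  have hpos := hfin.orderOf_pos
  refine period_pos_of_fixed hpos ?_
  have h1 := pow_orderOf_eq_one (MulAction.toPermHom SL(2, ℤ) (SL(2, ℤ) ⧸ Γ) T)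
  rw [← map_pow] at h1
  have h2 := congrArg (fun σ : Equiv.Perm (SL(2, ℤ) ⧸ Γ) => σ x) h1
  simpa using h2

lemma conj_zpow_mem_iff (g : SL(2, ℤ)) (n : ℤ) :
    g⁻¹ * T ^ n * g ∈ Γ ↔ T ^ n • (QuotientGroup.mk g : SL(2, ℤ) ⧸ Γ) = QuotientGroup.mk g := by
  rw [smul_mk', eq_comm, QuotientGroup.eq, mul_assoc]

lemma conj_zpow_mem_iff_dvd (g : SL(2, ℤ)) (n : ℤ) :
    g⁻¹ * T ^ n * g ∈ Γ ↔ ((period T (QuotientGroup.mk g : SL(2, ℤ) ⧸ Γ) : ℕ) : ℤ) ∣ n := by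
  rw [conj_zpow_mem_iff, zpow_smul_eq_iff_period_dvd]

lemma period_zpow_smul (j : ℤ) (x : SL(2, ℤ) ⧸ Γ) : period T (T ^ j • x) = period T x := by
  have key : ∀ n : ℕ, T ^ n • (T ^ j • x) = T ^ j • x ↔ T ^ n • x = x := by
    intro n
    rw [smul_smul, ← zpow_natCast, ← zpow_add, add_comm, zpow_add, ← smul_smul]
    exact smul_left_cancel_iff _
  apply Nat.dvd_antisymm
  · rw [← pow_smul_eq_iff_period_dvd, key, pow_period_smul]
  · rw [← pow_smul_eq_iff_period_dvd, ← key, pow_period_smul]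

lemma inv_conj_pow (g t : SL(2, ℤ)) (k : ℕ) : (g⁻¹ * t * g) ^ k = g⁻¹ * t ^ k * g := by
  have := conj_pow (a := g⁻¹) (b := t) (i := k)
  rwa [inv_inv] at this

lemma conj_T_zpow_ne_one (g : SL(2, ℤ)) {n : ℤ} (hn : n ≠ 0) : g⁻¹ * T ^ n * g ≠ 1 := by
  intro h
  have h1 : T ^ n = 1 := by
    have : T ^ n = g * (g⁻¹ * T ^ n * g) * g⁻¹ := by group
    rw [this, h]; group
  have h2 := congrArg (fun m : SL(2, ℤ) => m 0 1) h1
  simp only [T_zpow_01] at h2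
  exact hn (by simpa using h2)

variable (Γ)

/-- `γ = g⁻¹ T^w g` with `g Γ = x` and `w` the period of `x` under `T`. -/
def IsCuspElt (x : SL(2, ℤ) ⧸ Γ) (γ : Γ) : Prop :=
  ∃ g : SL(2, ℤ), (QuotientGroup.mk g : SL(2, ℤ) ⧸ Γ) = x ∧
    (γ : SL(2, ℤ)) = g⁻¹ * T ^ period T x * g

/-- positive primitive parabolic elements of `Γ` -/
def IsPPP (γ : Γ) : Prop :=
  tr (γ : SL(2, ℤ)) = 2 ∧ γ ≠ 1 ∧ NonPos (γ : SL(2, ℤ)) ∧
    ∀ (γ' : Γ) (k : ℕ), tr (γ' : SL(2, ℤ)) = 2 → γ = γ' ^ k → k = 1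

variable {Γ}

/-- the canonical cusp element at `x` -/
theorem isCuspElt_cocElt (x : SL(2, ℤ) ⧸ Γ) :
    IsCuspElt Γ x (cocElt Γ (T ^ period T x) x) := by
  refine ⟨rep Γ x, mk_rep Γ x, ?_⟩
  show (rep Γ x)⁻¹ * T ^ period T x * rep Γ ((T ^ period T x)⁻¹ • x) = _
  have : (T ^ period T x)⁻¹ • x = x := by
    rw [inv_smul_eq_iff, pow_period_smul]
  rw [this]

/-- **Claim A**: cusp elements are positive primitive parabolic. -/
theorem IsCuspElt.isPPP [Finite (SL(2, ℤ) ⧸ Γ)] {x : SL(2, ℤ) ⧸ Γ} {γ : Γ}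
    (h : IsCuspElt Γ x γ) : IsPPP Γ γ := by
  obtain ⟨g, hgx, hγ⟩ := h
  have hw := period_pos x
  set w := period T x with hwdef
  have hγ' : (γ : SL(2, ℤ)) = g⁻¹ * T ^ (w : ℤ) * g := by rw [hγ, zpow_natCast]
  have hw0 : (w : ℤ) ≠ 0 := by exact_mod_cast hw.ne'
  refine ⟨?_, ?_, ?_, ?_⟩
  · rw [hγ', tr_conj, tr_T_zpow]
  · intro h1
    have : (γ : SL(2, ℤ)) = 1 := by rw [h1]; rfl
    rw [hγ'] at this
    exact conj_T_zpow_ne_one g hw0 this
  · rw [hγ', nonPos_conj_T_zpow]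
    exact_mod_cast hw.le
  · intro γ' k htr hk
    obtain ⟨u, m, hu⟩ := exists_conj_T_zpow (γ' : SL(2, ℤ)) htr
    -- γ = γ'^k = u⁻¹ T^(m k) u
    have h1 : (γ : SL(2, ℤ)) = u⁻¹ * T ^ (m * k) * u := by
      rw [hk]
      push_cast
      rw [hu, zpow_mul, zpow_natCast]
      rw [inv_conj_pow]
    -- (u g⁻¹) T^w = T^(m k) (u g⁻¹)
    have h2 : (u * g⁻¹) * T ^ (w : ℤ) = T ^ (m * k) * (u * g⁻¹) := by
      have : g⁻¹ * T ^ (w : ℤ) * g = u⁻¹ * T ^ (m * k) * u := by rw [← hγ', h1]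
      calc (u * g⁻¹) * T ^ (w : ℤ) = u * (g⁻¹ * T ^ (w : ℤ) * g) * g⁻¹ := by group
        _ = u * (u⁻¹ * T ^ (m * k) * u) * g⁻¹ := by rw [this]
        _ = T ^ (m * k) * (u * g⁻¹) := by group
    obtain ⟨hwmk, j, hj⟩ := eq_T_zpow_of_comm hw0 h2
    -- γ' = g⁻¹ T^m g
    have h3 : (γ' : SL(2, ℤ)) = g⁻¹ * T ^ m * g := by
      have hu' : u = (u * g⁻¹) * g := by group
      rcases hj with hj | hj
      · rw [hu, hu', hj]
        have : (T ^ j * g)⁻¹ * T ^ m * (T ^ j * g) = g⁻¹ * (T ^ (-j) * T ^ m * T ^ j) * g := by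
          rw [zpow_neg]; group
        rw [this, ← zpow_add, ← zpow_add]
        congr 2
        ring_nf
      · rw [hu, hu', hj]
        have : (-T ^ j * g)⁻¹ * T ^ m * (-T ^ j * g) = g⁻¹ * (T ^ (-j) * T ^ m * T ^ j) * g := by
          rw [zpow_neg]
          have e1 : (-T ^ j * g) = -(T ^ j * g) := by rw [neg_mul]
          rw [e1]
          have e2 : (-(T ^ j * g))⁻¹ = -((T ^ j * g)⁻¹) := by
            rw [eq_comm, ← mul_eq_one_iff_eq_inv]
            simp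
          rw [e2]
          simp only [neg_mul, mul_neg, neg_neg]
          group
        rw [this, ← zpow_add, ← zpow_add]
        congr 2
        ring_nf
    -- w ∣ m
    have h4 : (w : ℤ) ∣ m := by
      have hmem : g⁻¹ * T ^ m * g ∈ Γ := by rw [← h3]; exact γ'.2
      have := (conj_zpow_mem_iff_dvd (Γ := Γ) g m).mp hmem
      rwa [hgx] at this
    obtain ⟨m', hm'⟩ := h4
    -- w = m k = w m' k ⇒ m' k = 1
    have h5 : m' * (k : ℤ) = 1 := by
      have : (w : ℤ) * (m' * k) = (w : ℤ) * 1 := by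
        rw [mul_one]
        calc (w : ℤ) * (m' * k) = m * k := by rw [hm']; ring
          _ = w := hwmk.symm
      exact mul_left_cancel₀ hw0 this
    have h6 : (k : ℤ) ∣ 1 := Dvd.intro_left _ h5
    have h7 : (k : ℤ) = 1 := by
      rcases Int.isUnit_iff.mp (isUnit_of_dvd_one h6) with h | h
      · exact h
      · have : (0 : ℤ) ≤ k := Int.natCast_nonneg k
        omega
    exact_mod_cast h7

/-- **Claim B**: every positive primitive parabolic element is a cusp element. -/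
theorem IsPPP.exists_isCuspElt [Finite (SL(2, ℤ) ⧸ Γ)] {γ : Γ} (h : IsPPP Γ γ) :
    ∃ x : SL(2, ℤ) ⧸ Γ, IsCuspElt Γ x γ := by
  obtain ⟨htr, hne, hnp, hprim⟩ := h
  obtain ⟨g, n, hg⟩ := exists_conj_T_zpow (γ : SL(2, ℤ)) htr
  have hn0 : 0 ≤ n := by
    rw [hg] at hnp
    exact (nonPos_conj_T_zpow g n).mp hnp
  have hn1 : n ≠ 0 := by
    intro h0
    apply hne
    apply Subtype.ext
    rw [hg, h0, zpow_zero]
    simp
  set x : SL(2, ℤ) ⧸ Γ := QuotientGroup.mk g with hx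
  have hw := period_pos x
  set w := period T x with hwdef
  have hdvd : (w : ℤ) ∣ n := by
    have hmem : g⁻¹ * T ^ n * g ∈ Γ := by rw [← hg]; exact γ.2
    exact (conj_zpow_mem_iff_dvd (Γ := Γ) g n).mp hmem
  obtain ⟨k', hk'⟩ := hdvd
  have hk'0 : 0 ≤ k' := by
    by_contra hneg
    rw [not_le] at hneg
    have : (w : ℤ) * k' < 0 := mul_neg_of_pos_of_neg (by exact_mod_cast hw) hneg
    omega
  obtain ⟨k, hk⟩ := Int.eq_ofNat_of_zero_le hk'0
  -- γ₀ := g⁻¹ T^w g ∈ Γ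
  have hmem0 : g⁻¹ * T ^ (w : ℤ) * g ∈ Γ :=
    (conj_zpow_mem_iff_dvd (Γ := Γ) g w).mpr (dvd_refl _)
  have hpow : γ = (⟨_, hmem0⟩ : Γ) ^ k := by
    apply Subtype.ext
    push_cast
    rw [inv_conj_pow, hg, hk', hk, zpow_mul, zpow_natCast, zpow_natCast]
  have hk1 := hprim ⟨_, hmem0⟩ k (by show tr (g⁻¹ * T ^ (w : ℤ) * g) = 2; rw [tr_conj, tr_T_zpow]) hpow
  refine ⟨x, g, rfl, ?_⟩
  rw [hg, hk', hk, hk1, Nat.cast_one, mul_one, zpow_natCast]

/-- **Claim C**: two cusp elements are `Γ`-conjugate iff their points lie in the same `T`-orbit. -/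
theorem IsCuspElt.conj_iff [Finite (SL(2, ℤ) ⧸ Γ)] (hneg : -1 ∈ Γ) {x x' : SL(2, ℤ) ⧸ Γ} {γ γ' : Γ}
    (h : IsCuspElt Γ x γ) (h' : IsCuspElt Γ x' γ') :
    (∃ δ : Γ, γ' = δ * γ * δ⁻¹) ↔ x' ∈ MulAction.orbit (Subgroup.zpowers T) x := by
  obtain ⟨g, hgx, hγ⟩ := h
  obtain ⟨g', hgx', hγ'⟩ := h'
  have hw := period_pos x
  have hw' := period_pos x'
  constructor
  · rintro ⟨δ, hδ⟩
    -- b := g δ⁻¹
    have h1 : g'⁻¹ * T ^ period T x' * g' = (g * (δ : SL(2, ℤ))⁻¹)⁻¹ * T ^ period T x *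
        (g * (δ : SL(2, ℤ))⁻¹) := by
      rw [← hγ']
      have : (γ' : SL(2, ℤ)) = δ * γ * (δ : SL(2, ℤ))⁻¹ := by rw [hδ]; rfl
      rw [this, hγ]
      group
    set b := g * (δ : SL(2, ℤ))⁻¹ with hb
    have h2 : (b * g'⁻¹) * T ^ ((period T x' : ℕ) : ℤ) = T ^ ((period T x : ℕ) : ℤ) * (b * g'⁻¹) := by
      rw [zpow_natCast, zpow_natCast]
      calc (b * g'⁻¹) * T ^ period T x' = b * (g'⁻¹ * T ^ period T x' * g') * g'⁻¹ := by group
        _ = b * (b⁻¹ * T ^ period T x * b) * g'⁻¹ := by rw [h1]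
        _ = T ^ period T x * (b * g'⁻¹) := by group
    obtain ⟨-, j, hj⟩ := eq_T_zpow_of_comm (by exact_mod_cast hw'.ne') h2
    -- x = b Γ = T^j g' Γ
    have hbx : (QuotientGroup.mk b : SL(2, ℤ) ⧸ Γ) = x := by
      rw [← hgx, hb, eq_comm, QuotientGroup.eq]
      have : g⁻¹ * (g * (δ : SL(2, ℤ))⁻¹) = (δ : SL(2, ℤ))⁻¹ := by group
      rw [this]
      exact Γ.inv_mem δ.2
    have hb' : b = (b * g'⁻¹) * g' := by group
    have hxx' : x = T ^ j • x' := by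
      rw [← hbx, ← hgx', smul_mk', hb']
      rcases hj with hj | hj
      · rw [hj]
      · rw [hj, QuotientGroup.eq]
        have : (-T ^ j * g')⁻¹ * (T ^ j * g') = -1 := by
          have e1 : (-T ^ j * g') = -(T ^ j * g') := by rw [neg_mul]
          rw [e1]
          have e2 : (-(T ^ j * g'))⁻¹ = -((T ^ j * g')⁻¹) := by
            rw [eq_comm, ← mul_eq_one_iff_eq_inv]
            simp
          rw [e2, neg_mul, inv_mul_cancel]
        rw [this]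
        exact hneg
    rw [MulAction.mem_orbit_iff]
    refine ⟨⟨T ^ (-j), Subgroup.zpow_mem_zpowers T _⟩, ?_⟩
    show T ^ (-j) • x = x'
    rw [hxx', smul_smul, ← zpow_add]
    simp
  · intro horb
    rw [MulAction.mem_orbit_iff] at horb
    obtain ⟨⟨t, ht⟩, htx⟩ := horb
    obtain ⟨j, rfl⟩ := Subgroup.mem_zpowers_iff.mp ht
    have htx' : T ^ j • x = x' := htx
    have hper : period T x' = period T x := by rw [← htx', period_zpow_smul]
    -- g' = T^j g δ₀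
    have hmem : (T ^ j * g)⁻¹ * g' ∈ Γ := by
      rw [← QuotientGroup.eq, ← smul_mk', hgx, hgx', htx']
    refine ⟨⟨_, Γ.inv_mem hmem⟩, ?_⟩
    apply Subtype.ext
    show (γ' : SL(2, ℤ)) = ((T ^ j * g)⁻¹ * g')⁻¹ * γ * (((T ^ j * g)⁻¹ * g')⁻¹)⁻¹
    rw [hγ', hγ, hper]
    have hcomm : T ^ (-j) * T ^ period T x * T ^ j = T ^ period T x := by
      rw [← zpow_natCast, ← zpow_add, ← zpow_add]
      congr 1
      ring
    calc g'⁻¹ * T ^ period T x * g'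
        = g'⁻¹ * (T ^ j * g) * (g⁻¹ * (T ^ (-j) * T ^ period T x * T ^ j) * g) *
            ((T ^ j * g)⁻¹ * g') := by rw [zpow_neg]; group
      _ = ((T ^ j * g)⁻¹ * g')⁻¹ * (g⁻¹ * T ^ period T x * g) * (((T ^ j * g)⁻¹ * g')⁻¹)⁻¹ := by
          rw [hcomm]; group

end Fermat.Agent.S41lib.PD.Par
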