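/-
S41 / PD block, PD4c part 3 (helper8): an isomorphism `θ : Γ₁ ≃* Γ₂` induced by an integral matrix
`W` of positive determinant (`W γ = θ(γ) W`) permutes the cusp classes:

* `Par.IsCuspSystem Γ c` : `c O` is a cusp element at some point of the `T`-orbit `O`;
* `Par.cuspElt Γ O`, `Par.isCuspSystem_cuspElt`;
* `Par.exists_orbT_equiv` : `∃ π : orbT Γ₁ ≃ orbT Γ₂, ∀ O, θ (c₁ O)` is `Γ₂`-conjugate to `c₂ (π O)`;
* `Par.sum_cusp_conj`    : `∑ O, F (θ (c₁ O)) = ∑ O, F (c₂ O)` for class functions `F`.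
-/
import Mathlib
import Fermat.Agent.S41lib.PD.Par.Orbit

set_option autoImplicit false

namespace Fermat.Agent.S41lib.PD.Par

open ModularGroup MulAction
open Fermat.Agent.ProgramR.ES
open scoped MatrixGroups

/-! ### Intertwining matrices -/

lemma tr_eq_of_intertwine {g g' : SL(2, ℤ)} (W : Matrix (Fin 2) (Fin 2) ℤ) (hW : W.det ≠ 0)
    (h : W * (g : Matrix (Fin 2) (Fin 2) ℤ) = (g' : Matrix (Fin 2) (Fin 2) ℤ) * W) :
    tr g' = tr g := by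
  rw [Matrix.det_fin_two] at hW
  have h00 := congrFun (congrFun h 0) 0
  have h01 := congrFun (congrFun h 0) 1
  have h10 := congrFun (congrFun h 1) 0
  have h11 := congrFun (congrFun h 1) 1
  simp only [Matrix.mul_apply, Fin.sum_univ_two] at h00 h01 h10 h11
  unfold tr
  have key : (W 0 0 * W 1 1 - W 0 1 * W 1 0) * (g' 0 0 + g' 1 1) =
      (W 0 0 * W 1 1 - W 0 1 * W 1 0) * (g 0 0 + g 1 1) := by
    linear_combination (-(W 1 1)) * h00 + W 1 0 * h01 + W 0 1 * h10 - W 0 0 * h11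
  exact mul_left_cancel₀ hW key

lemma intertwine_adjugate {g g' : SL(2, ℤ)} (W : Matrix (Fin 2) (Fin 2) ℤ) (hW : W.det ≠ 0)
    (h : W * (g : Matrix (Fin 2) (Fin 2) ℤ) = (g' : Matrix (Fin 2) (Fin 2) ℤ) * W) :
    W.adjugate * (g' : Matrix (Fin 2) (Fin 2) ℤ) = (g : Matrix (Fin 2) (Fin 2) ℤ) * W.adjugate := by
  have h1 : W.adjugate * (g' : Matrix (Fin 2) (Fin 2) ℤ) * (W * W.adjugate) =
      (W.adjugate * W) * (g : Matrix (Fin 2) (Fin 2) ℤ) * W.adjugate := by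
    calc W.adjugate * (g' : Matrix (Fin 2) (Fin 2) ℤ) * (W * W.adjugate)
        = W.adjugate * ((g' : Matrix (Fin 2) (Fin 2) ℤ) * W) * W.adjugate := by
          simp only [Matrix.mul_assoc]
      _ = W.adjugate * (W * (g : Matrix (Fin 2) (Fin 2) ℤ)) * W.adjugate := by rw [h]
      _ = (W.adjugate * W) * (g : Matrix (Fin 2) (Fin 2) ℤ) * W.adjugate := by
          simp only [Matrix.mul_assoc]
  rw [Matrix.mul_adjugate, Matrix.adjugate_mul] at h1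
  simp only [Matrix.mul_smul, Matrix.smul_mul, Matrix.mul_one, Matrix.one_mul] at h1
  exact smul_right_injective _ hW h1

lemma det_adjugate_two (W : Matrix (Fin 2) (Fin 2) ℤ) : W.adjugate.det = W.det := by
  rw [Matrix.det_adjugate]
  simp

/-- the two directions of non-positivity -/
lemma nonPos_iff_of_intertwine {g g' : SL(2, ℤ)} (W : Matrix (Fin 2) (Fin 2) ℤ) (hW : 0 < W.det)
    (h : W * (g : Matrix (Fin 2) (Fin 2) ℤ) = (g' : Matrix (Fin 2) (Fin 2) ℤ) * W) :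
    NonPos g ↔ NonPos g' := by
  constructor
  · intro hg
    exact nonPos_of_intertwine W.adjugate (by rw [det_adjugate_two]; exact hW)
      (intertwine_adjugate W hW.ne' h) hg
  · exact nonPos_of_intertwine W hW h

variable {Γ₁ Γ₂ : Subgroup SL(2, ℤ)}

/-- `θ` is induced by `W`: `W γ = θ(γ) W`. -/
def Intertwines (W : Matrix (Fin 2) (Fin 2) ℤ) (θ : Γ₁ ≃* Γ₂) : Prop :=
  ∀ γ : Γ₁, W * ((γ : SL(2, ℤ)) : Matrix (Fin 2) (Fin 2) ℤ) =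
    ((θ γ : SL(2, ℤ)) : Matrix (Fin 2) (Fin 2) ℤ) * W

lemma Intertwines.symm {W : Matrix (Fin 2) (Fin 2) ℤ} {θ : Γ₁ ≃* Γ₂} (hW : W.det ≠ 0)
    (h : Intertwines W θ) : Intertwines W.adjugate θ.symm := by
  intro γ
  have := h (θ.symm γ)
  rw [MulEquiv.apply_symm_apply] at this
  exact intertwine_adjugate W hW this

/-- positive primitive parabolics are preserved -/
theorem IsPPP.map {W : Matrix (Fin 2) (Fin 2) ℤ} {θ : Γ₁ ≃* Γ₂} (hW : 0 < W.det)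
    (h : Intertwines W θ) {γ : Γ₁} (hγ : IsPPP Γ₁ γ) : IsPPP Γ₂ (θ γ) := by
  obtain ⟨htr, hne, hnp, hprim⟩ := hγ
  refine ⟨?_, ?_, ?_, ?_⟩
  · rw [tr_eq_of_intertwine W hW.ne' (h γ), htr]
  · intro h1
    apply hne
    have : θ γ = θ 1 := by rw [h1, map_one]
    exact θ.injective this
  · exact (nonPos_iff_of_intertwine W hW (h γ)).mp hnp
  · intro γ' k htr' hk
    apply hprim (θ.symm γ') k
    · have h2 := h (θ.symm γ')
      rw [MulEquiv.apply_symm_apply] at h2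
      rw [← tr_eq_of_intertwine W hW.ne' h2, htr']
    · apply θ.injective
      rw [hk, map_pow, MulEquiv.apply_symm_apply]

/-! ### Cusp systems -/

variable (Γ : Subgroup SL(2, ℤ))

/-- A system of cusp elements: one for each `T`-orbit. -/
def IsCuspSystem (c : orbT Γ → Γ) : Prop :=
  ∀ O : orbT Γ, ∃ x : SL(2, ℤ) ⧸ Γ, (Quotient.mk'' x : orbT Γ) = O ∧ IsCuspElt Γ x (c O)

/-- The canonical system: `(rep x_O)⁻¹ T^w rep x_O`. -/
noncomputable def cuspElt (O : orbT Γ) : Γ :=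
  cocElt Γ (T ^ period T (Quotient.out O)) (Quotient.out O)

theorem isCuspSystem_cuspElt : IsCuspSystem Γ (cuspElt Γ) := by
  intro O
  exact ⟨Quotient.out O, Quotient.out_eq' O, isCuspElt_cocElt _⟩

variable {Γ}

lemma orbT_mk_eq_iff {x y : SL(2, ℤ) ⧸ Γ} :
    (Quotient.mk'' x : orbT Γ) = Quotient.mk'' y ↔ x ∈ MulAction.orbit (Subgroup.zpowers T) y := by
  rw [Quotient.eq'']
  exact MulAction.orbitRel_apply

/-- **Main theorem of PD4c.** -/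
theorem exists_orbT_equiv [Finite (SL(2, ℤ) ⧸ Γ₁)] [Finite (SL(2, ℤ) ⧸ Γ₂)]
    (hneg₁ : -1 ∈ Γ₁) (hneg₂ : -1 ∈ Γ₂)
    (W : Matrix (Fin 2) (Fin 2) ℤ) (hW : 0 < W.det) (θ : Γ₁ ≃* Γ₂)
    (hθ : ∀ γ : Γ₁, W * ((γ : SL(2, ℤ)) : Matrix (Fin 2) (Fin 2) ℤ) =
      ((θ γ : SL(2, ℤ)) : Matrix (Fin 2) (Fin 2) ℤ) * W)
    {c₁ : orbT Γ₁ → Γ₁} {c₂ : orbT Γ₂ → Γ₂} (h₁ : IsCuspSystem Γ₁ c₁) (h₂ : IsCuspSystem Γ₂ c₂) :
    ∃ π : orbT Γ₁ ≃ orbT Γ₂, ∀ O, ∃ δ : Γ₂, θ (c₁ O) = δ * c₂ (π O) * δ⁻¹ := by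
  classical
  have hI : Intertwines W θ := hθ
  have hI' : Intertwines W.adjugate θ.symm := hI.symm hW.ne'
  have hW' : 0 < W.adjugate.det := by rw [det_adjugate_two]; exact hW
  -- for each O₁ a point y of X₂ at which θ (c₁ O₁) is a cusp element
  have hex : ∀ O : orbT Γ₁, ∃ y : SL(2, ℤ) ⧸ Γ₂, IsCuspElt Γ₂ y (θ (c₁ O)) := by
    intro O
    obtain ⟨x, -, hx⟩ := h₁ O
    exact (IsPPP.map hW hI hx.isPPP).exists_isCuspElt
  choose yf hyf using hex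
  let f : orbT Γ₁ → orbT Γ₂ := fun O => Quotient.mk'' (yf O)
  -- conjugacy statement
  have hconj : ∀ O, ∃ δ : Γ₂, θ (c₁ O) = δ * c₂ (f O) * δ⁻¹ := by
    intro O
    obtain ⟨y', hy'O, hy'⟩ := h₂ (f O)
    have horb : yf O ∈ MulAction.orbit (Subgroup.zpowers T) y' := by
      rw [← orbT_mk_eq_iff, hy'O]
    exact (IsCuspElt.conj_iff hneg₂ hy' (hyf O)).mpr horb
  have hinj : Function.Injective f := by
    intro O O' hOO'
    obtain ⟨x, hxO, hx⟩ := h₁ O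
    obtain ⟨x', hxO', hx'⟩ := h₁ O'
    have horb : yf O' ∈ MulAction.orbit (Subgroup.zpowers T) (yf O) := by
      rw [← orbT_mk_eq_iff]
      exact hOO'.symm
    obtain ⟨δ, hδ⟩ := (IsCuspElt.conj_iff hneg₂ (hyf O) (hyf O')).mpr horb
    have h3 : c₁ O' = θ.symm δ * c₁ O * (θ.symm δ)⁻¹ := by
      apply θ.injective
      rw [hδ, map_mul, map_mul, map_inv, MulEquiv.apply_symm_apply]
    have h4 := (IsCuspElt.conj_iff hneg₁ hx hx').mp ⟨_, h3⟩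
    rw [← hxO, ← hxO']
    exact (orbT_mk_eq_iff.mpr h4).symm
  have hsurj : Function.Surjective f := by
    intro O₂
    obtain ⟨y, hyO, hy⟩ := h₂ O₂
    obtain ⟨x, hx⟩ := (IsPPP.map hW' hI' hy.isPPP).exists_isCuspElt
    refine ⟨Quotient.mk'' x, ?_⟩
    obtain ⟨x', hx'O, hx'⟩ := h₁ (Quotient.mk'' x)
    -- c₁ ⟦x⟧ is conjugate to θ.symm (c₂ O₂)
    have horb : x ∈ MulAction.orbit (Subgroup.zpowers T) x' := by
      rw [← orbT_mk_eq_iff, hx'O]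
    obtain ⟨δ, hδ⟩ := (IsCuspElt.conj_iff hneg₁ hx' hx).mpr horb
    -- θ (c₁ ⟦x⟧) is conjugate to c₂ O₂
    have h3 : c₂ O₂ = θ δ * θ (c₁ (Quotient.mk'' x)) * (θ δ)⁻¹ := by
      have := congrArg θ hδ
      rw [MulEquiv.apply_symm_apply, map_mul, map_mul, map_inv] at this
      exact this
    have h4 := (IsCuspElt.conj_iff hneg₂ (hyf (Quotient.mk'' x)) hy).mp ⟨_, h3⟩
    show (Quotient.mk'' (yf (Quotient.mk'' x)) : orbT Γ₂) = O₂
    rw [← hyO]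
    exact (orbT_mk_eq_iff.mpr h4).symm
  exact ⟨Equiv.ofBijective f ⟨hinj, hsurj⟩, hconj⟩

/-- **Corollary**: sums of class functions over cusp systems are transported by `θ`. -/
theorem sum_cusp_conj [Finite (SL(2, ℤ) ⧸ Γ₁)] [Finite (SL(2, ℤ) ⧸ Γ₂)]
    (hneg₁ : -1 ∈ Γ₁) (hneg₂ : -1 ∈ Γ₂)
    (W : Matrix (Fin 2) (Fin 2) ℤ) (hW : 0 < W.det) (θ : Γ₁ ≃* Γ₂)
    (hθ : ∀ γ : Γ₁, W * ((γ : SL(2, ℤ)) : Matrix (Fin 2) (Fin 2) ℤ) =
      ((θ γ : SL(2, ℤ)) : Matrix (Fin 2) (Fin 2) ℤ) * W)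
    {c₁ : orbT Γ₁ → Γ₁} {c₂ : orbT Γ₂ → Γ₂} (h₁ : IsCuspSystem Γ₁ c₁) (h₂ : IsCuspSystem Γ₂ c₂)
    [Fintype (orbT Γ₁)] [Fintype (orbT Γ₂)] {B : Type*} [AddCommMonoid B] (F : Γ₂ → B)
    (hF : ∀ δ γ : Γ₂, (γ : SL(2, ℤ)) 0 0 + (γ : SL(2, ℤ)) 1 1 = 2 → F (δ * γ * δ⁻¹) = F γ) :
    ∑ O, F (θ (c₁ O)) = ∑ O, F (c₂ O) := by
  obtain ⟨π, hπ⟩ := exists_orbT_equiv hneg₁ hneg₂ W hW θ hθ h₁ h₂
  rw [← Equiv.sum_comp π (fun O => F (c₂ O))]
  refine Finset.sum_congr rfl fun O _ => ?_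
  obtain ⟨δ, hδ⟩ := hπ O
  rw [hδ]
  apply hF
  obtain ⟨y, -, hy⟩ := h₂ (π O)
  exact hy.isPPP.1

end Fermat.Agent.S41lib.PD.Par
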